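import Fermat.Agent.OrdinaryAtP.Fixed

/-!
# Unipotent inertia is trivial on connected groups of exponent two

A finite group of exponent two on which inertia at a place over `2` acts by involutions, carrying
functions which are integral, equivariant, congruent to their value at the origin, separating and
compatible with the group law, has trivial inertia action.

Main result: `inertia_trivial`.
-/

set_option autoImplicit false

noncomputable section

open Polynomial
open Fermat.Agent.Arith Fermat.Agent.OrdinaryAtP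

namespace Fermat.Agent.LT.LocalProps

variable {A : ValuationSubring QBar} {M : Type*} [AddCommGroup M] [DistribMulAction GQ M]
  (G : AddSubgroup M) (H : Set (M → QBar))

/-! ## The functions and their combinations -/

/-- The hypotheses on the functions. -/
structure ConnectedData (A : ValuationSubring QBar) (G : AddSubgroup M) (H : Set (M → QBar)) :
    Prop where
  mem_A : ∀ f ∈ H, ∀ x ∈ G, f x ∈ A
  equivariant : ∀ f ∈ H, ∀ σ ∈ A.inertiaSubgroupIn ℚ, ∀ x ∈ G, f (σ • x) = σ (f x)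
  congr : ∀ f ∈ H, ∀ x ∈ G, f x - f 0 ∈ A.nonunits
  separates : ∀ x ∈ G, (∀ f ∈ H, f x = f 0) → x = 0
  comul : ∀ f ∈ H, ∃ (n : ℕ) (a b : Fin n → (M → QBar)),
    (∀ i, a i ∈ H) ∧ (∀ i, b i ∈ H) ∧ ∀ x y, f (x + y) = ∑ i, a i x * b i y

/-- The combinations over the fixed ring. -/
abbrev hull (A : ValuationSubring QBar) (H : Set (M → QBar)) :
    Submodule (fixRing A) (M → QBar) :=
  Submodule.span (fixRing A) H

variable {G H} (D : ConnectedData A G H)
include D

theorem hull_mem_A {f : M → QBar} (hf : f ∈ hull A H) {x : M} (hx : x ∈ G) : f x ∈ A := by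
  induction hf using Submodule.span_induction with
  | mem f hf => exact D.mem_A f hf x hx
  | zero => exact zero_mem A
  | add f g _ _ hf hg => exact add_mem hf hg
  | smul w f _ hf => exact mul_mem w.2.1 hf

theorem hull_equivariant {f : M → QBar} (hf : f ∈ hull A H) {σ : GQ}
    (hσ : σ ∈ A.inertiaSubgroupIn ℚ) {x : M} (hx : x ∈ G) : f (σ • x) = σ (f x) := by
  induction hf using Submodule.span_induction with
  | mem f hf => exact D.equivariant f hf σ hσ x hx
  | zero => exact (map_zero σ).symm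
  | add f g _ _ hf hg => simp only [Pi.add_apply, hf, hg, map_add]
  | smul w f _ hf =>
    show (w : QBar) * f (σ • x) = σ ((w : QBar) * f x)
    rw [hf, map_mul, fixed_apply w hσ]

theorem hull_congr {f : M → QBar} (hf : f ∈ hull A H) {x : M} (hx : x ∈ G) :
    f x - f 0 ∈ A.nonunits := by
  induction hf using Submodule.span_induction with
  | mem f hf => exact D.congr f hf x hx
  | zero =>
    simpa only [Pi.zero_apply, sub_zero, ZeroMemClass.coe_zero] using
        (ValuationSubring.coe_mem_nonunits_iff (a := (0 : A))).mpr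
      (zero_mem (IsLocalRing.maximalIdeal A))
  | add f g hf₀ hg₀ hf hg =>
    obtain ⟨hF, hf'⟩ := (ValuationSubring.mem_nonunits_iff_exists_mem_maximalIdeal
      (A := A)).mp hf
    obtain ⟨hG, hg'⟩ := (ValuationSubring.mem_nonunits_iff_exists_mem_maximalIdeal
      (A := A)).mp hg
    rw [show (f + g) x - (f + g) 0 = (f x - f 0) + (g x - g 0) by simp only [Pi.add_apply]; ring]
    exact (ValuationSubring.coe_mem_nonunits_iff (a := (⟨_, hF⟩ + ⟨_, hG⟩ : A))).mpr
      (add_mem hf' hg')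
  | smul w f hf₀ hf =>
    obtain ⟨hF, hf'⟩ := (ValuationSubring.mem_nonunits_iff_exists_mem_maximalIdeal
      (A := A)).mp hf
    rw [show (w • f) x - (w • f) 0 = (w : QBar) * (f x - f 0) from by
      show (w : QBar) * f x - (w : QBar) * f 0 = _
      ring]
    exact (ValuationSubring.coe_mem_nonunits_iff (a := (⟨_, w.2.1⟩ * ⟨_, hF⟩ : A))).mpr
      (Ideal.mul_mem_left _ _ hf')

theorem hull_comul {f : M → QBar} (hf : f ∈ hull A H) :
    ∃ (ι : Type) (_ : Fintype ι) (a b : ι → (M → QBar)),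
      (∀ i, a i ∈ hull A H) ∧ (∀ i, b i ∈ hull A H) ∧
        ∀ x y, f (x + y) = ∑ i, a i x * b i y := by
  induction hf using Submodule.span_induction with
  | mem f hf =>
    obtain ⟨n, a, b, ha, hb, h⟩ := D.comul f hf
    exact ⟨Fin n, inferInstance, a, b, fun i => Submodule.subset_span (ha i),
      fun i => Submodule.subset_span (hb i), h⟩
  | zero =>
    exact ⟨Fin 0, inferInstance, Fin.elim0, Fin.elim0, fun i => i.elim0, fun i => i.elim0,
      fun x y => by simp⟩
  | add f g _ _ hf hg =>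
    obtain ⟨ι, _, a, b, ha, hb, h⟩ := hf
    obtain ⟨κ, _, a', b', ha', hb', h'⟩ := hg
    refine ⟨ι ⊕ κ, inferInstance, Sum.elim a a', Sum.elim b b', ?_, ?_, fun x y => ?_⟩
    · rintro (i | i)
      exacts [ha i, ha' i]
    · rintro (i | i)
      exacts [hb i, hb' i]
    · simp [h, h', Fintype.sum_sum_type]
  | smul w f _ hf =>
    obtain ⟨ι, _, a, b, ha, hb, h⟩ := hf
    refine ⟨ι, inferInstance, fun i => w • a i, b, fun i => Submodule.smul_mem _ w (ha i), hb,
      fun x y => ?_⟩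
    show (w : QBar) * f (x + y) = ∑ i, ((w : QBar) * a i x) * b i y
    rw [h, Finset.mul_sum]
    exact Finset.sum_congr rfl fun i _ => by ring

omit D in
/-- `x` is fixed by inertia. -/
def IsFix (A : ValuationSubring QBar) (x : M) : Prop := ∀ σ ∈ A.inertiaSubgroupIn ℚ, σ • x = x

omit D in
theorem isFix_zero (A : ValuationSubring QBar) : IsFix A (0 : M) := fun σ _ => smul_zero σ

theorem hull_mem_fixRing {f : M → QBar} (hf : f ∈ hull A H) {z : M} (hz : z ∈ G)
    (hfix : IsFix A z) : f z ∈ fixRing A :=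
  ⟨hull_mem_A D hf hz, fun σ hσ => by rw [← hull_equivariant D hf hσ hz, hfix σ hσ]⟩

variable (hA : A.LiesOverPrime 2)
include hA

theorem two_dvd_sub {f : M → QBar} (hf : f ∈ hull A H) {z : M} (hz : z ∈ G) (hfix : IsFix A z) :
    (2 : fixRing A) ∣ ⟨f 0, hull_mem_fixRing D hf (zero_mem G) (isFix_zero A)⟩ -
      ⟨f z, hull_mem_fixRing D hf hz hfix⟩ := by
  have h : resW A (⟨f z, hull_mem_fixRing D hf hz hfix⟩ -
      ⟨f 0, hull_mem_fixRing D hf (zero_mem G) (isFix_zero A)⟩) = 0 :=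
    resW_eq_zero_iff.mpr (hull_congr D hf hz)
  rw [← dvd_neg, neg_sub]
  exact_mod_cast natCast_dvd_of_resW_eq_zero hA Nat.prime_two h

/-! ## Halving and eigenfunctions -/

omit D hA in
/-- `f ↦ (f + ε f(· + z)) / 2`. -/
def halfMap (z : M) (ε : QBar) : (M → QBar) →ₗ[QBar] (M → QBar) where
  toFun f y := (f y + ε * f (y + z)) / 2
  map_add' f g := funext fun y => by simp only [Pi.add_apply]; ring
  map_smul' c f := funext fun y => by
    simp only [Pi.smul_apply, smul_eq_mul, RingHom.id_apply]; ring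

theorem halfMap_mem {z : M} (hz : z ∈ G) (hfix : IsFix A z) {ε : QBar} (hε : ε = 1 ∨ ε = -1)
    {f : M → QBar} (hf : f ∈ hull A H) : halfMap z ε f ∈ hull A H := by
  obtain ⟨ι, _, a, b, ha, hb, h⟩ := hull_comul D hf
  have hw : ∀ i, ∃ w : fixRing A, (w : QBar) = (b i 0 + ε * b i z) / 2 := by
    intro i
    obtain ⟨c, hc⟩ := two_dvd_sub D hA (hb i) hz hfix
    have hc' : b i 0 - b i z = 2 * (c : QBar) := congrArg Subtype.val hc
    rcases hε with rfl | rfl
    · refine ⟨c + ⟨b i z, hull_mem_fixRing D (hb i) hz hfix⟩, ?_⟩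
      show (c : QBar) + b i z = _
      linear_combination -hc' / 2
    · refine ⟨c, ?_⟩
      linear_combination -hc' / 2
  choose w hw using hw
  have e : halfMap z ε f = ∑ i, w i • a i := by
    funext y
    show (f y + ε * f (y + z)) / 2 = _
    conv_lhs => rw [h y z, show f y = f (y + 0) by rw [add_zero], h y 0, Finset.mul_sum,
      ← Finset.sum_add_distrib, Finset.sum_div]
    rw [Finset.sum_apply]
    refine Finset.sum_congr rfl fun i _ => ?_
    show _ = (w i : QBar) * a i y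
    rw [hw]
    ring
  rw [e]
  exact Submodule.sum_mem _ fun i _ => Submodule.smul_mem _ _ (ha i)

variable (hexp : ∀ x ∈ G, x + x = 0)
include hexp

/-- At every fixed point other than the origin some member differs by exactly `2`. -/
theorem exists_exact {z : M} (hz : z ∈ G) (hfix : IsFix A z) (hz0 : z ≠ 0) :
    ∃ v ∈ hull A H, halfMap z (-1) v 0 ∉ A.nonunits := by
  classical
  let Δ : ∀ v ∈ hull A H, fixRing A := fun v hv =>
    ⟨v 0, hull_mem_fixRing D hv (zero_mem G) (isFix_zero A)⟩ - ⟨v z, hull_mem_fixRing D hv hz hfix⟩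
  -- `n` is the least exponent of `2` in the differences `v 0 - v z`
  have hex : ∃ n : ℕ, ∃ v, ∃ hv : v ∈ hull A H, ∃ u : (fixRing A)ˣ,
      Δ v hv = (2 : fixRing A) ^ n * u := by
    obtain ⟨f, hf, hfz⟩ : ∃ f ∈ H, f z ≠ f 0 := by
      by_contra! h
      exact hz0 (D.separates z hz h)
    obtain ⟨n, u, hu⟩ := exists_pow_mul_unit hA Nat.prime_two
      (w := Δ f (Submodule.subset_span hf)) (fun h => hfz (by
        have := congrArg Subtype.val h
        exact (sub_eq_zero.mp this).symm))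
    exact ⟨n, f, Submodule.subset_span hf, u, by exact_mod_cast hu⟩
  have hdvd : ∀ v (hv : v ∈ hull A H), (2 : fixRing A) ^ Nat.find hex ∣ Δ v hv := by
    intro v hv
    rcases eq_or_ne (Δ v hv) 0 with h | h
    · exact h ▸ dvd_zero _
    obtain ⟨m, u, hu⟩ := exists_pow_mul_unit hA Nat.prime_two h
    have hu' : Δ v hv = (2 : fixRing A) ^ m * u := by exact_mod_cast hu
    rw [hu']
    exact dvd_mul_of_dvd_left (pow_dvd_pow _ (Nat.find_le ⟨v, hv, u, hu'⟩)) _
  obtain ⟨v, hv, u, hu⟩ := Nat.find_spec hex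
  have h2 : ¬ IsUnit (2 : fixRing A) := by exact_mod_cast not_isUnit_natCast hA
  have h1 : 1 ≤ Nat.find hex := by
    by_contra h
    rw [show Nat.find hex = 0 by omega, pow_zero, one_mul] at hu
    exact h2 (isUnit_of_dvd_unit (hu ▸ two_dvd_sub D hA hv hz hfix) u.isUnit)
  -- `2 (v 0 - v z)` is a sum of products of two differences, so `2 n ≤ n + 1`
  have hle : Nat.find hex ≤ 1 := by
    obtain ⟨ι, _, a, b, ha, hb, h⟩ := hull_comul D hv
    have key : (2 : fixRing A) * Δ v hv = ∑ i, Δ (a i) (ha i) * Δ (b i) (hb i) := by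
      refine Subtype.ext ?_
      rw [Subring.coe_mul, AddSubmonoidClass.coe_finsetSum]
      show (2 : QBar) * (v 0 - v z) = ∑ i, (a i 0 - a i z) * (b i 0 - b i z)
      have e00 := h 0 0
      have ez0 := h z 0
      have e0z := h 0 z
      have ezz := h z z
      rw [add_zero] at e00 ez0
      rw [zero_add] at e0z
      rw [hexp z hz] at ezz
      simp only [sub_mul, mul_sub, Finset.sum_sub_distrib, ← e00, ← ez0, ← e0z, ← ezz]
      ring
    have hd : (2 : fixRing A) ^ (Nat.find hex + Nat.find hex) ∣ (2 : fixRing A) * Δ v hv := by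
      rw [key, pow_add]
      exact Finset.dvd_sum fun i _ => mul_dvd_mul (hdvd _ (ha i)) (hdvd _ (hb i))
    by_contra hc
    obtain ⟨k, hk⟩ : ∃ k, Nat.find hex = k + 1 + 1 := ⟨Nat.find hex - 2, by omega⟩
    rw [hu, hk, ← mul_assoc, ← pow_succ'] at hd
    have h20 : (2 : fixRing A) ≠ 0 := by
      exact_mod_cast natCast_fix_ne_zero (A := A) Nat.prime_two
    rw [show k + 1 + 1 + (k + 1 + 1) = (k + 1 + 1 + 1) + (k + 1) by ring, pow_add,
      mul_dvd_mul_iff_left (pow_ne_zero _ h20)] at hd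
    exact h2 (isUnit_of_dvd_unit ((dvd_pow_self _ (Nat.succ_ne_zero k)).trans hd) u.isUnit)
  rw [show Nat.find hex = 1 by omega, pow_one] at hu
  refine ⟨v, hv, fun hn => ?_⟩
  have e : halfMap z (-1) v 0 = ((u : fixRing A) : QBar) := by
    have hu' : v 0 - v z = 2 * ((u : fixRing A) : QBar) := congrArg Subtype.val hu
    show (v 0 + -1 * v (0 + z)) / 2 = _
    rw [zero_add]
    linear_combination hu' / 2
  rw [e] at hn
  exact (u.isUnit.map (resW A)).ne_zero (resW_eq_zero_iff.mpr hn)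

/-- Successive halving gives a simultaneous eigenfunction for the translations. -/
theorem exists_proj {z₁ : M} (hz₁ : z₁ ∈ G) (hfix₁ : IsFix A z₁) {v : M → QBar}
    (hu : halfMap z₁ (-1) v 0 ∉ A.nonunits) (s : Finset M)
    (hs : ∀ z ∈ s, z ∈ G ∧ IsFix A z) :
    ∃ (P : (M → QBar) →ₗ[QBar] (M → QBar)) (ψ : M → QBar),
      (∀ f ∈ hull A H, P f ∈ hull A H) ∧ ψ z₁ = -1 ∧ P v 0 ∉ A.nonunits ∧
      (∀ z, (z = z₁ ∨ z ∈ s) → ∀ f y, P f (y + z) = ψ z * P f y) ∧
      (∀ f, (∀ z, (z = z₁ ∨ z ∈ s) → ∀ y, f (y + z) = ψ z * f y) → P f = f) := by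
  classical
  have hsq : ∀ z ∈ G, ∀ ε : QBar, ε * ε = 1 → ∀ (f : M → QBar) y,
      halfMap z ε f (y + z) = ε * halfMap z ε f y := by
    intro z hz ε hε f y
    show (f (y + z) + ε * f (y + z + z)) / 2 = ε * ((f y + ε * f (y + z)) / 2)
    rw [add_assoc y z z, hexp z hz, add_zero]
    linear_combination -(f (y + z)) / 2 * hε
  induction s using Finset.induction with
  | empty =>
    refine ⟨halfMap z₁ (-1), fun _ => -1, fun f hf => halfMap_mem D hA hz₁ hfix₁ (Or.inr rfl) hf,
      rfl, hu, fun z hz f y => ?_, fun f hf => funext fun y => ?_⟩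
    · rcases hz with rfl | hz
      · exact hsq z hz₁ (-1) (by ring) f y
      · exact absurd hz (Finset.notMem_empty z)
    · show (f y + -1 * f (y + z₁)) / 2 = f y
      rw [hf z₁ (Or.inl rfl)]
      ring
  | insert z s hzs ih =>
    obtain ⟨P, ψ, hP, hψ, hPv, heig, hfixed⟩ := ih fun w hw => hs w (Finset.mem_insert_of_mem hw)
    obtain ⟨hzG, hzfix⟩ := hs z (Finset.mem_insert_self z s)
    by_cases hz1 : z = z₁
    · subst hz1
      refine ⟨P, ψ, hP, hψ, hPv, fun w hw => heig w ?_, fun f hf => hfixed f fun w hw => hf w ?_⟩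
      · exact hw.elim Or.inl fun h => (Finset.mem_insert.mp h).elim Or.inl Or.inr
      · exact hw.elim Or.inl fun h => Or.inr (Finset.mem_insert_of_mem h)
    -- one of the two signs at `z` keeps the value at `0` a unit
    obtain ⟨ε, hε, hεu⟩ : ∃ ε : QBar, (ε = 1 ∨ ε = -1) ∧ halfMap z ε (P v) 0 ∉ A.nonunits := by
      by_contra! h
      refine hPv ?_
      obtain ⟨h₁, h₁'⟩ := (ValuationSubring.mem_nonunits_iff_exists_mem_maximalIdeal
        (A := A)).mp (h 1 (Or.inl rfl))
      obtain ⟨h₂, h₂'⟩ := (ValuationSubring.mem_nonunits_iff_exists_mem_maximalIdeal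
        (A := A)).mp (h (-1) (Or.inr rfl))
      have e : P v 0 = halfMap z 1 (P v) 0 + halfMap z (-1) (P v) 0 := by
        show P v 0 = (P v 0 + 1 * P v (0 + z)) / 2 + (P v 0 + -1 * P v (0 + z)) / 2
        ring
      rw [e]
      exact (ValuationSubring.coe_mem_nonunits_iff (a := (⟨_, h₁⟩ + ⟨_, h₂⟩ : A))).mpr
        (add_mem h₁' h₂')
    have hε2 : ε * ε = 1 := by rcases hε with rfl | rfl <;> ring
    have hold : ∀ w, (w = z₁ ∨ w ∈ s) → Function.update ψ z ε w = ψ w := by
      intro w hw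
      refine Function.update_of_ne ?_ _ _
      rintro rfl
      exact hw.elim hz1 hzs
    refine ⟨(halfMap z ε).comp P, Function.update ψ z ε,
      fun f hf => halfMap_mem D hA hzG hzfix hε (hP f hf), by rw [hold z₁ (Or.inl rfl), hψ],
      hεu, fun w hw f y => ?_, fun f hf => ?_⟩
    · by_cases hwz : w = z
      · subst hwz
        rw [Function.update_self]
        exact hsq w hzG ε hε2 (P f) y
      · have hw' : w = z₁ ∨ w ∈ s :=
          hw.elim Or.inl fun h => Or.inr ((Finset.mem_insert.mp h).resolve_left hwz)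
        rw [hold w hw']
        show (P f (y + w) + ε * P f (y + w + z)) / 2 = ψ w * ((P f y + ε * P f (y + z)) / 2)
        rw [add_right_comm y w z, heig w hw', heig w hw']
        ring
    · -- what already transforms by `ψ` is unchanged
      have e1 : P f = f := hfixed f fun w hw => by
        rw [← hold w hw]
        exact hf w (hw.elim Or.inl fun h => Or.inr (Finset.mem_insert_of_mem h))
      funext y
      show (P f y + ε * P f (y + z)) / 2 = f y
      rw [e1, hf z (Or.inr (Finset.mem_insert_self z s)), Function.update_self]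
      linear_combination f y / 2 * hε2

/-! ## Values of the eigenfunctions -/

omit D hexp in
/-- A root of `X ^ 2 + X - g` in the fixed ring. -/
private theorem exists_sq_add_self_eq (g : fixRing A) :
    ∃ η : fixRing A, (η : QBar) ^ 2 + η - g = 0 := by
  have := residueField_charP hA Nat.prime_two
  have := residueField_isAlgClosed A
  set Q : (fixRing A)[X] := X ^ 2 + X - C g with hQdef
  have hQm : Q.Monic := by
    rw [hQdef, add_sub_assoc]
    exact monic_X_pow_add (lt_of_le_of_lt (degree_sub_le _ _) (max_lt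
      (degree_X_le.trans_lt (by norm_num)) (degree_C_le.trans_lt (by norm_num))))
  obtain ⟨z, hzr⟩ := IsAlgClosed.exists_root (Q.map (resW A)) (by
    rw [degree_map_eq_of_leadingCoeff_ne_zero _
      (by rw [hQm.leadingCoeff, map_one]; exact one_ne_zero)]
    intro hdeg
    have := Polynomial.eq_one_of_monic_natDegree_zero hQm
      (natDegree_eq_zero_iff_degree_le_zero.mpr hdeg.le)
    have hc := congrArg (fun q : (fixRing A)[X] => q.coeff 2) this
    simp [hQdef, coeff_X, coeff_one] at hc)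
  obtain ⟨η, hη, -⟩ := exists_root_fixRing Q hQm (z := z) hzr (by
    simp only [hQdef, Polynomial.map_sub, Polynomial.map_add, Polynomial.map_pow, map_X, map_C,
      derivative_sub, derivative_add, derivative_X_pow, derivative_X, derivative_C, sub_zero,
      eval_add, eval_mul, eval_C, eval_pow, eval_X, eval_one]
    rw [CharP.cast_eq_zero (IsLocalRing.ResidueField A) 2, zero_mul, zero_add]
    exact one_ne_zero)
  have := congrArg Subtype.val hη
  exact ⟨η, by simpa [hQdef] using this⟩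

omit D hA hexp [DistribMulAction GQ M] in
/-- A comultiplication of an eigenfunction projects to the eigenfunctions. -/
private theorem comul_proj {ι : Type*} [Fintype ι] (P : (M → QBar) →ₗ[QBar] (M → QBar))
    {d ψ : M → QBar} {Z : M → Prop}
    (hfixed : ∀ f, (∀ z, Z z → ∀ t, f (t + z) = ψ z * f t) → P f = f)
    (hdP : ∀ z, Z z → ∀ y, d (y + z) = ψ z * d y) {a b : ι → M → QBar}
    (hab : ∀ x y, d (x + y) = ∑ i, a i x * b i y) (y y' : M) :
    d (y + y') = ∑ i, P (a i) y * P (b i) y' := by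
  have e1 : ∀ y y', d (y + y') = ∑ i, P (a i) y * b i y' := by
    intro y y'
    have e : (fun t => d (t + y')) = ∑ i, b i y' • a i := funext fun t => by
      simp [hab, Finset.sum_apply, mul_comm]
    have h1 := hfixed (fun t => d (t + y')) fun z hz t => by
      show d (t + z + y') = ψ z * d (t + y')
      rw [add_right_comm]
      exact hdP z hz _
    rw [e, map_sum] at h1
    have h2 := congrFun h1 y
    simp only [map_smul, Finset.sum_apply, Pi.smul_apply, smul_eq_mul] at h2
    rw [hab, ← Finset.sum_congr rfl fun i _ => mul_comm (b i y') (a i y), ← h2]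
    exact Finset.sum_congr rfl fun i _ => mul_comm _ _
  have e : (fun t => d (y + t)) = ∑ i, P (a i) y • b i := funext fun t => by
    simp [e1, Finset.sum_apply]
  have h1 := hfixed (fun t => d (y + t)) fun z hz t => by
    show d (y + (t + z)) = ψ z * d (y + t)
    rw [← add_assoc]
    exact hdP z hz _
  rw [e, map_sum] at h1
  have h2 := congrFun h1 y'
  simp only [map_smul, Finset.sum_apply, Pi.smul_apply, smul_eq_mul] at h2
  rw [e1, ← h2]

omit D hA hexp [AddCommGroup M] [DistribMulAction GQ M] in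
/-- What a comultiplication at `0` and at a point with value `r` of square congruent to one says. -/
private theorem sq_mul_eq_one {ι : Type*} [Fintype ι] {r : QBar} (hr0 : r ≠ 0)
    {a₀ b₀ ax bx ka kb : ι → QBar} (hka : ∀ i, ax i = r * (a₀ i + 2 * ka i))
    (hkb : ∀ i, bx i = r * (b₀ i + 2 * kb i)) (h00 : ∑ i, a₀ i * b₀ i = 1)
    (hx0 : ∑ i, ax i * b₀ i = r) (h0x : ∑ i, a₀ i * bx i = r) (hxx : ∑ i, ax i * bx i = 1) :
    r ^ 2 * (1 + 4 * ∑ i, ka i * kb i) = 1 := by
  have ex0 : ∑ i, ka i * b₀ i = 0 := by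
    have : ∑ i, ax i * b₀ i = r * ∑ i, a₀ i * b₀ i + 2 * r * ∑ i, ka i * b₀ i := by
      rw [Finset.mul_sum, Finset.mul_sum, ← Finset.sum_add_distrib]
      exact Finset.sum_congr rfl fun i _ => by rw [hka]; ring
    rw [this, h00, mul_one, add_eq_left] at hx0
    exact (mul_eq_zero.mp hx0).resolve_left (mul_ne_zero two_ne_zero hr0)
  have e0x : ∑ i, a₀ i * kb i = 0 := by
    have : ∑ i, a₀ i * bx i = r * ∑ i, a₀ i * b₀ i + 2 * r * ∑ i, a₀ i * kb i := by
      rw [Finset.mul_sum, Finset.mul_sum, ← Finset.sum_add_distrib]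
      exact Finset.sum_congr rfl fun i _ => by rw [hkb]; ring
    rw [this, h00, mul_one, add_eq_left] at h0x
    exact (mul_eq_zero.mp h0x).resolve_left (mul_ne_zero two_ne_zero hr0)
  have : ∑ i, ax i * bx i = r ^ 2 * (∑ i, a₀ i * b₀ i + 2 * ∑ i, ka i * b₀ i +
      2 * ∑ i, a₀ i * kb i + 4 * ∑ i, ka i * kb i) := by
    simp only [Finset.mul_sum, ← Finset.sum_add_distrib]
    exact Finset.sum_congr rfl fun i _ => by rw [hka, hkb]; ring
  rw [this, h00, ex0, e0x] at hxx
  linear_combination hxx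

omit hexp in
/-- If `d` and `U` transform at `x` by the same nonzero factors under inertia and `d 0 = 1`, then
`U x / d x` is in the fixed ring and congruent to `U 0` modulo `2`. -/
private theorem exists_value_eq {x : M} (hx : x ∈ G) {d U : M → QBar} (hd : d ∈ hull A H)
    (hU : U ∈ hull A H) (hd0 : d 0 = 1) (hdu : d x ∉ A.nonunits) {χ : GQ → QBar}
    (hχ : ∀ σ ∈ A.inertiaSubgroupIn ℚ, χ σ ≠ 0)
    (hdχ : ∀ σ ∈ A.inertiaSubgroupIn ℚ, σ (d x) = χ σ * d x)
    (hUχ : ∀ σ ∈ A.inertiaSubgroupIn ℚ, σ (U x) = χ σ * U x) :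
    ∃ w : fixRing A, U x = d x * (U 0 + 2 * (w : QBar)) := by
  set r : A := ⟨d x, hull_mem_A D hd hx⟩ with hrdef
  have hru : IsUnit r := by
    by_contra h
    exact hdu ((ValuationSubring.coe_mem_nonunits_iff (a := r)).mpr
      ((IsLocalRing.mem_maximalIdeal r).mpr h))
  have hrres : IsLocalRing.residue A r = 1 := by
    rw [← map_one (IsLocalRing.residue A)]
    refine residue_eq_iff.mpr ?_
    have := hull_congr D hd hx
    rwa [hd0] at this
  obtain ⟨r', hr'⟩ := hru.exists_right_inv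
  have hr'' : d x * (r' : QBar) = 1 := congrArg Subtype.val hr'
  have hwA : U x * (r' : QBar) ∈ A := mul_mem (hull_mem_A D hU hx) r'.2
  have hwfix : ∀ σ ∈ A.inertiaSubgroupIn ℚ, σ (U x * (r' : QBar)) = U x * (r' : QBar) := by
    intro σ hσ
    rw [eq_inv_of_mul_eq_one_right hr'', map_mul, map_inv₀, hdχ σ hσ, hUχ σ hσ]
    have hne : χ σ ≠ 0 := hχ σ hσ
    field_simp
  set w₀ : fixRing A := ⟨U x * (r' : QBar), hwA, hwfix⟩
  set u₀ : fixRing A := ⟨U 0, hull_mem_fixRing D hU (zero_mem G) (isFix_zero A)⟩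
  have hres : resW A (w₀ - u₀) = 0 := by
    rw [map_sub, sub_eq_zero]
    have h2 : IsLocalRing.residue A r' = 1 := by
      have := congrArg (IsLocalRing.residue A) hr'
      rwa [map_mul, map_one, hrres, one_mul] at this
    show IsLocalRing.residue A ((⟨U x, hull_mem_A D hU hx⟩ : A) * r') =
      IsLocalRing.residue A ⟨U 0, hull_mem_A D hU (zero_mem G)⟩
    rw [map_mul, h2, mul_one]
    exact residue_eq_iff.mpr (hull_congr D hU hx)
  obtain ⟨k, hk⟩ := natCast_dvd_of_resW_eq_zero hA Nat.prime_two hres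
  refine ⟨k, ?_⟩
  have hk' : U x * (r' : QBar) - U 0 = 2 * (k : QBar) := congrArg Subtype.val hk
  linear_combination d x * hk' - U x * hr''

variable [Finite M] (hstab : ∀ σ ∈ A.inertiaSubgroupIn ℚ, ∀ x ∈ G, σ • x ∈ G)
  (hinv : ∀ σ ∈ A.inertiaSubgroupIn ℚ, ∀ x ∈ G, σ • σ • x = x)
include hstab hinv

/-! ## Triviality of the action -/

omit D hA in
/-- A moved element all whose displacements are fixed. -/
theorem exists_displacement {x₀ : M} (hx₀ : x₀ ∈ G) (hne : ¬ IsFix A x₀) :
    ∃ x ∈ G, ¬ IsFix A x ∧ ∀ σ ∈ A.inertiaSubgroupIn ℚ, IsFix A (σ • x - x) := by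
  classical
  have hcomm : ∀ σ ∈ A.inertiaSubgroupIn ℚ, ∀ τ ∈ A.inertiaSubgroupIn ℚ, ∀ x ∈ G,
      σ • τ • x = τ • σ • x := by
    intro σ hσ τ hτ x hx
    have h1 := hinv (σ * τ) (mul_mem hσ hτ) _ (hstab τ hτ _ (hstab σ hσ x hx))
    simp only [mul_smul] at h1
    rw [hinv τ hτ _ (hstab σ hσ x hx), hinv σ hσ x hx] at h1
    exact h1
  obtain ⟨x, ⟨hx, hxne⟩, hmax⟩ := Set.Finite.exists_maximalFor
    (fun x : M => {σ : GQ | σ ∈ A.inertiaSubgroupIn ℚ ∧ σ • x = x})
    {x | x ∈ G ∧ ¬ IsFix A x} (Set.toFinite _) ⟨x₀, hx₀, hne⟩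
  refine ⟨x, hx, hxne, fun σ hσ => ?_⟩
  by_contra hnf
  have hz : σ • x - x ∈ G := sub_mem (hstab σ hσ x hx) hx
  have hle : {τ : GQ | τ ∈ A.inertiaSubgroupIn ℚ ∧ τ • x = x} ≤
      {τ : GQ | τ ∈ A.inertiaSubgroupIn ℚ ∧ τ • (σ • x - x) = σ • x - x} := by
    rintro τ ⟨hτ, hτx⟩
    exact ⟨hτ, by rw [smul_sub, hcomm τ hτ σ hσ x hx, hτx]⟩
  have hmem := hmax ⟨hz, hnf⟩ hle (show σ ∈ _ from ⟨hσ, by
    rw [smul_sub, hinv σ hσ x hx, sub_eq_sub_iff_add_eq_add, hexp x hx,
      hexp _ (hstab σ hσ x hx)]⟩)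
  exact hnf (by rw [hmem.2, sub_self]; exact isFix_zero A)

/-- Inertia acts trivially. -/
theorem inertia_trivial : ∀ σ ∈ A.inertiaSubgroupIn ℚ, ∀ x ∈ G, σ • x = x := by
  classical
  intro σ₀ hσ₀ x₀ hx₀
  by_contra hne
  -- a moved `x` with fixed displacements `σ x - x`; `σ₁` moves it
  obtain ⟨x, hx, hxne, hdisp⟩ := exists_displacement hexp hstab hinv hx₀ fun h => hne (h σ₀ hσ₀)
  simp only [IsFix, not_forall] at hxne
  obtain ⟨σ₁, hσ₁, hx1⟩ := hxne
  have hz : ∀ σ ∈ A.inertiaSubgroupIn ℚ, σ • x - x ∈ G := fun σ hσ =>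
    sub_mem (hstab σ hσ x hx) hx
  -- an eigenfunction `d` of the fixed translations with eigenvalue `-1` at `σ₁ x - x`, `d 0 = 1`
  obtain ⟨v, hv, hvu⟩ := exists_exact D hA hexp (hz σ₁ hσ₁) (hdisp σ₁ hσ₁) (sub_ne_zero.mpr hx1)
  have := Fintype.ofFinite M
  obtain ⟨P, ψ, hP, hψ1, hPv, heig, hfixed⟩ := exists_proj D hA hexp (hz σ₁ hσ₁) (hdisp σ₁ hσ₁)
    hvu (Finset.univ.filter fun z => z ∈ G ∧ IsFix A z) fun z hz => (Finset.mem_filter.mp hz).2
  have hS : ∀ z ∈ G, IsFix A z → ∀ f y, P f (y + z) = ψ z * P f y := fun z hzG hzf =>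
    heig z (Or.inr (Finset.mem_filter.mpr ⟨Finset.mem_univ z, hzG, hzf⟩))
  obtain ⟨c, hc⟩ := isUnit_of_resW_ne_zero hA Nat.prime_two
    (w := ⟨P v 0, hull_mem_fixRing D (hP v hv) (zero_mem G) (isFix_zero A)⟩)
    fun h => hPv (resW_eq_zero_iff.mp h)
  set d : M → QBar := (↑c⁻¹ : fixRing A) • P v with hddef
  have hd : d ∈ hull A H := Submodule.smul_mem _ _ (hP v hv)
  have hd0 : d 0 = 1 := by
    have h1 := congrArg Subtype.val (Units.inv_mul c)
    rw [Subring.coe_mul, Subring.coe_one, hc] at h1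
    exact h1
  have hdP : ∀ z, (z = σ₁ • x - x ∨ z ∈ Finset.univ.filter fun z => z ∈ G ∧ IsFix A z) →
      ∀ y, d (y + z) = ψ z * d y := by
    intro z hz y
    show ((↑c⁻¹ : fixRing A) : QBar) * P v (y + z) = ψ z * (((↑c⁻¹ : fixRing A) : QBar) * P v y)
    rw [heig z hz]
    ring
  have hfilt : ∀ z ∈ G, IsFix A z →
      z ∈ Finset.univ.filter fun z => z ∈ G ∧ IsFix A z := fun z hzG hzf =>
    Finset.mem_filter.mpr ⟨Finset.mem_univ z, hzG, hzf⟩
  -- the transformation law at `x`
  have hσx : ∀ σ ∈ A.inertiaSubgroupIn ℚ, σ • x = x + (σ • x - x) := fun σ _ =>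
    (add_sub_cancel x _).symm
  have hrσ : ∀ σ ∈ A.inertiaSubgroupIn ℚ, σ (d x) = ψ (σ • x - x) * d x := fun σ hσ => by
    rw [← hull_equivariant D hd hσ hx]
    conv_lhs => rw [hσx σ hσ]
    exact hdP _ (Or.inr (hfilt _ (hz σ hσ) (hdisp σ hσ))) x
  have hψsq : ∀ σ ∈ A.inertiaSubgroupIn ℚ, ψ (σ • x - x) * ψ (σ • x - x) = 1 := by
    intro σ hσ
    have hz' := hfilt _ (hz σ hσ) (hdisp σ hσ)
    have h1 := hdP _ (Or.inr hz') (0 + (σ • x - x))
    rw [hdP _ (Or.inr hz') 0, zero_add, hexp _ (hz σ hσ), hd0, mul_one] at h1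
    exact h1.symm
  have hunit : d x ∉ A.nonunits := by
    intro hn
    obtain ⟨h1, h1'⟩ := (ValuationSubring.mem_nonunits_iff_exists_mem_maximalIdeal
      (A := A)).mp hn
    obtain ⟨h2, h2'⟩ := (ValuationSubring.mem_nonunits_iff_exists_mem_maximalIdeal
      (A := A)).mp (hull_congr D hd hx)
    refine (IsLocalRing.maximalIdeal.isMaximal A).ne_top ((Ideal.eq_top_iff_one _).mpr ?_)
    have : (1 : A) = ⟨d x, h1⟩ - ⟨d x - d 0, h2⟩ := Subtype.ext (by
      show (1 : QBar) = d x - (d x - d 0)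
      rw [hd0]; ring)
    rw [this]
    exact sub_mem h1' h2'
  have hr0 : d x ≠ 0 := fun h => hunit
    (h ▸ (ValuationSubring.coe_mem_nonunits_iff (a := (0 : A))).mpr
      (zero_mem (IsLocalRing.maximalIdeal A)))
  -- the factors at `x`
  obtain ⟨ι, _, a, b, ha, hb, hab⟩ := hull_comul D hd
  have hval : ∀ f ∈ hull A H, ∃ w : fixRing A, P f x = d x * (P f 0 + 2 * (w : QBar)) :=
    fun f hf => exists_value_eq D hA hx hd (hP f hf) hd0 hunit
      (fun σ hσ => left_ne_zero_of_mul_eq_one (hψsq σ hσ)) hrσ fun σ hσ => by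
        rw [← hull_equivariant D (hP f hf) hσ hx, ← hS _ (hz σ hσ) (hdisp σ hσ) f x,
          add_sub_cancel]
  have hproj : ∀ y y', d (y + y') = ∑ i, P (a i) y * P (b i) y' :=
    comul_proj P hfixed hdP hab
  -- comparing the law at `(0, 0)`, `(x, 0)`, `(0, x)` and `(x, x)`: `(d x)² (1 + 4 g) = 1`
  choose ka hka using fun i => hval (a i) (ha i)
  choose kb hkb using fun i => hval (b i) (hb i)
  set g : fixRing A := ∑ i, ka i * kb i with hgdef
  have hg : d x ^ 2 * (1 + 4 * (g : QBar)) = 1 := by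
    rw [hgdef, AddSubmonoidClass.coe_finsetSum]
    simp only [Subring.coe_mul]
    refine sq_mul_eq_one hr0 hka hkb ?_ ?_ ?_ ?_ <;> rw [← hproj]
    · rw [add_zero, hd0]
    · rw [add_zero]
    · rw [zero_add]
    · rw [hexp x hx, hd0]
  -- so `d x (1 + 2 η) = ± 1`, which `σ₁` both fixes and negates
  obtain ⟨η, hη'⟩ := exists_sq_add_self_eq hA g
  have hprod : (d x * (1 + 2 * (η : QBar))) ^ 2 = 1 := by
    linear_combination hg + 4 * d x ^ 2 * hη'
  have hfix1 : σ₁ (d x * (1 + 2 * (η : QBar))) = d x * (1 + 2 * (η : QBar)) := by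
    rcases sq_eq_one_iff.mp hprod with h | h <;> rw [h] <;> simp
  rw [map_mul, hrσ σ₁ hσ₁, hψ1, map_add, map_one, map_mul, fixed_apply η hσ₁, map_ofNat] at hfix1
  have h0 : d x * (1 + 2 * (η : QBar)) = 0 := by linear_combination -hfix1 / 2
  rw [h0] at hprod
  norm_num at hprod

end Fermat.Agent.LT.LocalProps

end
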